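/-
S35, cell [P-EQUIV], CLOSED FORM (helper8; prefix `s35p_`).

`q` a prime, `q ∤ N`; `ℓ` a prime, `ℓ ∤ N q`.  The two degeneracy maps
`P₁ = (α_q)_*`, `P₂ = (β_q)_* : T_p J₀(N q) → T_p J₀(N)` of `S35/PMaps.lean` commute with the
Hecke operators `T_ℓ`:

* `s35p_divComm_alpha`, `s35p_divComm_beta` : helper23's (D) inhabits `s35p_DivComm`;
* `s35p_P1J_hecke`, `s35p_P2J_hecke` : on the torsion of the Jacobians;
* **`s35p_P1_hecke`, `s35p_P2_hecke`** : `P_i ∘ₗ tj_hecke (N * q) p ℓ = tj_hecke N p ℓ ∘ₗ P_i`;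
* **`s35p_P1_Tl`, `s35p_P2_Tl`** : the package form, for `pk_Good (N * q) S ℓ`
  (the hypothesis `hP` of helper26's `s35n_newK`);
* `s35p_good_of_good`, `s35p_good_insert_iff`, `s35p_Tl_insert` : bookkeeping of the good primes.
-/
import Mathlib
import Fermat.Agent.S35.PMaps
import Fermat.Agent.S35.PEquiv.DivInst
import Fermat.Agent.JT3.Tate.Package

set_option autoImplicit false
set_option linter.unusedSectionVars false
set_option linter.style.haveILetI false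
set_option synthInstance.maxHeartbeats 400000
set_option maxHeartbeats 1000000

noncomputable section

namespace Fermat.Agent.S35

open ModularCurve AlgebraicCurve Fermat.Agent.S24 Fermat.Agent.JT3

variable (N q ℓ : ℕ) [NeZero N] [NeZero q] [NeZero ℓ]

/-- helper23's (D), `α`-side, as an inhabitant of `s35p_DivComm` -/
theorem s35p_divComm_alpha (hq : q.Prime) (hqN : ¬ q ∣ N) (hℓ : ℓ.Prime) (hℓN : ¬ ℓ ∣ N * q) :
    s35p_DivComm N q ℓ (heckeAlphaBar Kbar N q) (hib_alphaIntegral N q) :=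
  fun D m hm hD => s35pe_div_comm_alpha N q ℓ hq hqN hℓ hℓN D m hm hD

/-- helper23's (D), `β`-side, as an inhabitant of `s35p_DivComm` -/
theorem s35p_divComm_beta (hq : q.Prime) (hqN : ¬ q ∣ N) (hℓ : ℓ.Prime) (hℓN : ¬ ℓ ∣ N * q) :
    s35p_DivComm N q ℓ (heckeBetaBar Kbar N q) (hib_betaIntegral N q) :=
  fun D m hm hD => s35pe_div_comm_beta N q ℓ hq hqN hℓ hℓN D m hm hD

/-- `(α_q)_*` intertwines `T_ℓ` on the torsion of the Jacobians -/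
theorem s35p_P1J_hecke (hq : q.Prime) (hqN : ¬ q ∣ N) (hℓ : ℓ.Prime) (hℓN : ¬ ℓ ∣ N * q)
    (x : JZero (N * q)) (m : ℕ) (hm : m ≠ 0) (hx : m • x = 0) :
    s35p_P1J N q (heckeOperatorBar (N * q) ⟨ℓ, hℓ⟩ x)
      = heckeOperatorBar N ⟨ℓ, hℓ⟩ (s35p_P1J N q x) :=
  s35p_pushJ_hecke_of _ _ (s35p_divComm_alpha N q ℓ hq hqN hℓ hℓN) x m hm hx

/-- `(β_q)_*` intertwines `T_ℓ` on the torsion of the Jacobians -/
theorem s35p_P2J_hecke (hq : q.Prime) (hqN : ¬ q ∣ N) (hℓ : ℓ.Prime) (hℓN : ¬ ℓ ∣ N * q)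
    (x : JZero (N * q)) (m : ℕ) (hm : m ≠ 0) (hx : m • x = 0) :
    s35p_P2J N q (heckeOperatorBar (N * q) ⟨ℓ, hℓ⟩ x)
      = heckeOperatorBar N ⟨ℓ, hℓ⟩ (s35p_P2J N q x) :=
  s35p_pushJ_hecke_of _ _ (s35p_divComm_beta N q ℓ hq hqN hℓ hℓN) x m hm hx

variable (p : ℕ) [hp : Fact p.Prime]

/-- **[P-EQUIV] for `P₁`** -/
theorem s35p_P1_hecke (hq : q.Prime) (hqN : ¬ q ∣ N) (hℓ : ℓ.Prime) (hℓN : ¬ ℓ ∣ N * q) :
    s35p_P1 N q p ∘ₗ tj_hecke (N * q) p ⟨ℓ, hℓ⟩ = tj_hecke N p ⟨ℓ, hℓ⟩ ∘ₗ s35p_P1 N q p :=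
  s35p_P1_hecke_of p hℓ (s35p_divComm_alpha N q ℓ hq hqN hℓ hℓN)

/-- **[P-EQUIV] for `P₂`** -/
theorem s35p_P2_hecke (hq : q.Prime) (hqN : ¬ q ∣ N) (hℓ : ℓ.Prime) (hℓN : ¬ ℓ ∣ N * q) :
    s35p_P2 N q p ∘ₗ tj_hecke (N * q) p ⟨ℓ, hℓ⟩ = tj_hecke N p ⟨ℓ, hℓ⟩ ∘ₗ s35p_P2 N q p :=
  s35p_P2_hecke_of p hℓ (s35p_divComm_beta N q ℓ hq hqN hℓ hℓN)

/-! ### the package form -/

omit [NeZero N] [NeZero q] [NeZero ℓ] in
/-- a prime good at level `N q` is good at level `N` -/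
theorem s35p_good_of_good {S : Finset ℕ} (h : pk_Good (N * q) S ℓ) : pk_Good N S ℓ :=
  ⟨h.1, fun hd => h.2.1 (Dvd.dvd.mul_right hd q), h.2.2⟩

omit [NeZero N] [NeZero q] [NeZero ℓ] in
/-- for `q` prime: good at level `N q` ⟺ good at level `N` away from `insert q S` -/
theorem s35p_good_insert_iff (hq : q.Prime) (S : Finset ℕ) :
    pk_Good N (insert q S) ℓ ↔ pk_Good (N * q) S ℓ := by
  constructor
  · rintro ⟨h1, h2, h3⟩
    rw [Finset.coe_insert, Set.mem_insert_iff, not_or] at h3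
    refine ⟨h1, fun hd => ?_, h3.2⟩
    rcases (Nat.Prime.dvd_mul h1).mp hd with h | h
    · exact h2 h
    · exact h3.1 ((Nat.prime_dvd_prime_iff_eq h1 hq).mp h)
  · rintro ⟨h1, h2, h3⟩
    refine ⟨h1, fun hd => h2 (Dvd.dvd.mul_right hd q), ?_⟩
    rw [Finset.coe_insert, Set.mem_insert_iff, not_or]
    exact ⟨fun h => h2 (h ▸ Dvd.intro_left N rfl), h3⟩

omit [NeZero ℓ] in
/-- enlarging `S` does not change the Hecke operators at the primes which stay good -/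
theorem s35p_Tl_insert (S : Finset ℕ) (r : ℕ) (h : pk_Good N (insert r S) ℓ) :
    tjp_Tl N p (insert r S) ℓ = tjp_Tl N p S ℓ := by
  have h' : pk_Good N S ℓ := ⟨h.1, h.2.1, fun hS => h.2.2 (by
    rw [Finset.coe_insert]; exact Set.mem_insert_of_mem _ hS)⟩
  rw [tjp_Tl_good N p _ h, tjp_Tl_good N p _ h']

omit [NeZero ℓ] in
/-- **[P-EQUIV] for `P₁`, package form** (the hypothesis `hP` of `s35n_newK`) -/
theorem s35p_P1_Tl (hq : q.Prime) (hqN : ¬ q ∣ N) (S : Finset ℕ) (h : pk_Good (N * q) S ℓ) :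
    s35p_P1 N q p ∘ₗ tjp_Tl (N * q) p S ℓ = tjp_Tl N p S ℓ ∘ₗ s35p_P1 N q p := by
  haveI : NeZero ℓ := ⟨h.1.ne_zero⟩
  rw [tjp_Tl_good (N * q) p S h, tjp_Tl_good N p S (s35p_good_of_good N q ℓ h)]
  exact s35p_P1_hecke N q ℓ p hq hqN h.1 h.2.1

omit [NeZero ℓ] in
/-- **[P-EQUIV] for `P₂`, package form** -/
theorem s35p_P2_Tl (hq : q.Prime) (hqN : ¬ q ∣ N) (S : Finset ℕ) (h : pk_Good (N * q) S ℓ) :
    s35p_P2 N q p ∘ₗ tjp_Tl (N * q) p S ℓ = tjp_Tl N p S ℓ ∘ₗ s35p_P2 N q p := by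
  haveI : NeZero ℓ := ⟨h.1.ne_zero⟩
  rw [tjp_Tl_good (N * q) p S h, tjp_Tl_good N p S (s35p_good_of_good N q ℓ h)]
  exact s35p_P2_hecke N q ℓ p hq hqN h.1 h.2.1

end Fermat.Agent.S35
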